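import Fermat.Agent.S56.H254.FlatProd
import Fermat.Agent.S56.H716.TBDefs

/-!
# S56 / W-FLAT, bridge piece FL-BR (LIFT, KER): flat tangent cocycles as flat modules (helper254)

For a residual representation `ρbar` over a finite field `k` and a function
`c : G_ℚ → End_k V`, the module `V_c := k[ε] ⊗_k V` with the action `σ ↦ liftEnd ρbar c σ
= (1 + ε c(σ)) ρ̄(σ)` is the module underlying every lift `ρ'` with `IsLiftOf ρbar c ρ'`.

* `isFlatMod_of_isLiftOf` : `IsLiftOf ρbar c ρ'`, `ρ'.IsFlatAt p` ⟹ `IsFlatMod p V_c (liftEnd c)`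
  (only the ideal `I = ⊥` of `IsFlatAt` is used);
* `isFlatMod_pair` : for two flat lifts, `V_{c₁} × V_{c₂}` is flat (PROD);
* `liftEnd_eq_one_iff` : (KER) `σ` acts trivially on `V_c` iff `ρ̄ σ = 1` and `c σ = 0`;
* `isFlatMod_residual` : the residual module `V` itself is flat (ideal `I = (ε)`) — not needed for
  the count but useful for the structure of `ρ̄|_{D_p}`.
-/

set_option autoImplicit false

open scoped TensorProduct
open WithConv

noncomputable section

namespace Fermat.Agent.S56.H254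

open Fermat.Agent.S56 Fermat.Agent.S56.H716

local notation "Qb" => AlgebraicClosure ℚ
local notation "Zloc" => GaloisRep.ratLocalizedAt

section components

variable {k : Type} [Field k] {V : Type} [AddCommGroup V] [Module k V]

/-- The `1`-component `k[ε] ⊗ V → V`. -/
def fstV : (DualNumber k ⊗[k] V) →ₗ[k] V :=
  (TensorProduct.lid k V).toLinearMap ∘ₗ
    LinearMap.rTensor V ((TrivSqZeroExt.fstHom k k k).toLinearMap)

/-- The `ε`-component `k[ε] ⊗ V → V`. -/
def sndV : (DualNumber k ⊗[k] V) →ₗ[k] V :=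
  (TensorProduct.lid k V).toLinearMap ∘ₗ LinearMap.rTensor V (TrivSqZeroExt.sndHom k k)

@[simp] theorem fstV_tmul (z : DualNumber k) (v : V) : fstV (z ⊗ₜ[k] v) = z.fst • v := by
  simp [fstV]

@[simp] theorem sndV_tmul (z : DualNumber k) (v : V) : sndV (z ⊗ₜ[k] v) = z.snd • v := by
  simp [sndV]

/-- The value of `f ⊗ 1 + ε • (g ⊗ 1)` on `1 ⊗ v`. -/
theorem baseChange_add_eps_apply (f g : Module.End k V) (v : V) :
    (f.baseChange (DualNumber k) + (DualNumber.eps : DualNumber k) • g.baseChange (DualNumber k))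
      ((1 : DualNumber k) ⊗ₜ[k] v)
      = (1 : DualNumber k) ⊗ₜ[k] f v + (DualNumber.eps : DualNumber k) ⊗ₜ[k] g v := by
  rw [LinearMap.add_apply, LinearMap.smul_apply, LinearMap.baseChange_tmul,
    LinearMap.baseChange_tmul, TensorProduct.smul_tmul', smul_eq_mul, mul_one]

/-- `f ⊗ 1 + ε • (g ⊗ 1) = 1` iff `f = 1` and `g = 0`. -/
theorem baseChange_add_eps_eq_one_iff (f g : Module.End k V) :
    f.baseChange (DualNumber k) + (DualNumber.eps : DualNumber k) • g.baseChange (DualNumber k)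
      = 1 ↔ f = 1 ∧ g = 0 := by
  constructor
  · intro h
    have key : ∀ v : V, (1 : DualNumber k) ⊗ₜ[k] f v + (DualNumber.eps : DualNumber k) ⊗ₜ[k] g v
        = (1 : DualNumber k) ⊗ₜ[k] v := by
      intro v
      rw [← baseChange_add_eps_apply, h]
      rfl
    refine ⟨LinearMap.ext fun v => ?_, LinearMap.ext fun v => ?_⟩
    · have := congrArg fstV (key v)
      rw [map_add, fstV_tmul, fstV_tmul, fstV_tmul, TrivSqZeroExt.fst_one, DualNumber.fst_eps,
        one_smul, zero_smul, add_zero, one_smul] at this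
      exact this
    · have := congrArg sndV (key v)
      rw [map_add, sndV_tmul, sndV_tmul, sndV_tmul, TrivSqZeroExt.snd_one, DualNumber.snd_eps,
        one_smul, zero_smul, zero_add, zero_smul] at this
      exact this
  · rintro ⟨rfl, rfl⟩
    have h0 : (DualNumber.eps : DualNumber k) •
        (0 : Module.End (DualNumber k) (DualNumber k ⊗[k] V)) = 0 := by
      refine LinearMap.ext fun x => ?_
      rw [LinearMap.smul_apply, LinearMap.zero_apply, smul_zero]
    rw [LinearMap.baseChange_zero, h0, add_zero]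
    exact LinearMap.baseChange_one (R := k) (A := DualNumber k) (M := V)

end components

section lift

variable {k : Type} [Field k] (ρbar : ResidualGaloisRep k)

/-- **(KER)** `σ` acts trivially on `V_c` iff `ρ̄ σ = 1` and `c σ = 0`. -/
theorem liftEnd_eq_one_iff (c : GQ → Module.End k ρbar.V) (σ : GQ) :
    liftEnd ρbar c σ = 1 ↔ ρbar.ρ σ = 1 ∧ c σ = 0 := by
  unfold liftEnd
  rw [baseChange_add_eps_eq_one_iff]
  constructor
  · rintro ⟨h1, h2⟩
    refine ⟨h1, ?_⟩
    rw [h1, mul_one] at h2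
    exact h2
  · rintro ⟨h1, h2⟩
    refine ⟨h1, ?_⟩
    rw [h1, h2, mul_one]

theorem finite_dualNumber [Finite k] : Finite (DualNumber k) := by
  have : Finite (k × k) := inferInstance
  exact Finite.of_injective (fun z : DualNumber k => (z.fst, z.snd))
    (fun a b h => TrivSqZeroExt.ext (congrArg Prod.fst h) (congrArg Prod.snd h))

variable {ρbar}

/-- **(LIFT)** the module of a flat lift of `c` is a flat Galois module. -/
theorem isFlatMod_of_isLiftOf [Finite k] {p : ℕ} {c : GQ → Module.End k ρbar.V}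
    {ρ' : GaloisRepAdic (DualNumber k)} (hlift : IsLiftOf ρbar c ρ') (hflat : ρ'.IsFlatAt p) :
    IsFlatMod p (DualNumber k ⊗[k] ρbar.V) (fun σ => liftEnd ρbar c σ) := by
  obtain ⟨e, he⟩ := hlift
  haveI : Finite (DualNumber k) := finite_dualNumber
  have hfin : Finite (DualNumber k ⧸ (⊥ : Ideal (DualNumber k))) :=
    Finite.of_surjective _ (Ideal.Quotient.mk_surjective (I := (⊥ : Ideal (DualNumber k))))
  have h0 := ((isFlatAt_iff ρ' p).mp hflat).2 ⊥ hfin
  have hbot : ((⊥ : Ideal (DualNumber k)) • (⊤ : Submodule (DualNumber k) ρ'.V)) = ⊥ :=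
    Submodule.bot_smul _
  let φ : (ρ'.V ⧸ ((⊥ : Ideal (DualNumber k)) • (⊤ : Submodule (DualNumber k) ρ'.V)))
      ≃ₗ[DualNumber k] (DualNumber k ⊗[k] ρbar.V) :=
    (Submodule.quotEquivOfEqBot _ hbot).trans e
  refine h0.of_equiv φ.toAddEquiv _ ?_
  intro σ x
  obtain ⟨v, rfl⟩ := Submodule.Quotient.mk_surjective _ x
  show e (Submodule.quotEquivOfEqBot _ hbot (ρ'.levelAction ⊥ σ (Submodule.Quotient.mk v)))
    = liftEnd ρbar c σ (e (Submodule.quotEquivOfEqBot _ hbot (Submodule.Quotient.mk v)))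
  have h1 : ρ'.levelAction ⊥ σ (Submodule.Quotient.mk v) = Submodule.Quotient.mk (ρ'.ρ σ v) := rfl
  rw [h1, Submodule.quotEquivOfEqBot_apply_mk, Submodule.quotEquivOfEqBot_apply_mk, he]

/-- **(PROD)** two flat tangent cocycles give a flat module `V_{c₁} × V_{c₂}`. -/
theorem isFlatMod_pair [Finite k] {p : ℕ} {c₁ c₂ : GQ → Module.End k ρbar.V}
    {ρ₁ ρ₂ : GaloisRepAdic (DualNumber k)} (h₁ : IsLiftOf ρbar c₁ ρ₁) (hf₁ : ρ₁.IsFlatAt p)
    (h₂ : IsLiftOf ρbar c₂ ρ₂) (hf₂ : ρ₂.IsFlatAt p) :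
    IsFlatMod p ((DualNumber k ⊗[k] ρbar.V) × (DualNumber k ⊗[k] ρbar.V))
      (fun σ x => (liftEnd ρbar c₁ σ x.1, liftEnd ρbar c₂ σ x.2)) :=
  (isFlatMod_of_isLiftOf h₁ hf₁).prod (isFlatMod_of_isLiftOf h₂ hf₂)

/-- **(KER)** for the pair module: `σ` acts trivially on `V_{c₁} × V_{c₂}` iff `ρ̄ σ = 1`,
`c₁ σ = 0` and `c₂ σ = 0`. -/
theorem pair_fixed_iff (c₁ c₂ : GQ → Module.End k ρbar.V) (σ : GQ) :
    (∀ x : (DualNumber k ⊗[k] ρbar.V) × (DualNumber k ⊗[k] ρbar.V),
      (liftEnd ρbar c₁ σ x.1, liftEnd ρbar c₂ σ x.2) = x)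
      ↔ ρbar.ρ σ = 1 ∧ c₁ σ = 0 ∧ c₂ σ = 0 := by
  constructor
  · intro h
    have h1 : liftEnd ρbar c₁ σ = 1 := by
      refine LinearMap.ext fun x => ?_
      have := congrArg Prod.fst (h (x, 0))
      exact this
    have h2 : liftEnd ρbar c₂ σ = 1 := by
      refine LinearMap.ext fun x => ?_
      have := congrArg Prod.snd (h (0, x))
      exact this
    rw [liftEnd_eq_one_iff] at h1 h2
    exact ⟨h1.1, h1.2, h2.2⟩
  · rintro ⟨h0, h1, h2⟩ x
    have e1 : liftEnd ρbar c₁ σ = 1 := (liftEnd_eq_one_iff ρbar c₁ σ).mpr ⟨h0, h1⟩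
    have e2 : liftEnd ρbar c₂ σ = 1 := (liftEnd_eq_one_iff ρbar c₂ σ).mpr ⟨h0, h2⟩
    rw [e1, e2]
    rfl

end lift

end Fermat.Agent.S56.H254

end
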