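import Mathlib
import Fermat.Prelude.Def_GaloisRep_Flat

/-!
# S56 / W-FLAT, bridge piece FL-BR (core): flat Galois modules (helper254)

The Prelude's `GaloisRepAdic.IsFlatAt` says: every finite quotient `V ⧸ I V` of the representation
is, as a `G_ℚ`-module, the group of `ℚ̄`-points of a finite flat commutative (= cocommutative Hopf
algebra) group scheme over `ℤ_(p) = GaloisRep.ratLocalizedAt p`.  We isolate the property of ONE
module:

* `IsFlatMod p X act` — the additive group `X` with the action `act : G_ℚ → X → X` is the group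
  of `ℚ̄`-points of a finite flat cocommutative Hopf algebra over `ℤ_(p)`;
* `isFlatAt_iff` — `ρ.IsFlatAt p ↔ (finite residue field) ∧ ∀ I of finite index,
  IsFlatMod p (V ⧸ I V) (levelAction I)`  (definitional);
* `IsFlatMod.of_equiv` — transport along an equivariant additive isomorphism;
* `IsFlatMod.prod` — (PROD) the product of two flat modules is flat (`H₁ ⊗ H₂`);
* `isIntegral_point`, `point_mem_valuationSubring` — (INT) points are integral: they take values
  in every valuation subring `P` of `ℚ̄` lying over `p`.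

Everything is sorry-free; only Mathlib + the Prelude are used.
-/

set_option autoImplicit false

open scoped TensorProduct
open WithConv

noncomputable section

namespace Fermat.Agent.S56.H254

local notation "Qb" => AlgebraicClosure ℚ
local notation "GQ" => (AlgebraicClosure ℚ ≃ₐ[ℚ] AlgebraicClosure ℚ)
local notation "Zloc" => GaloisRep.ratLocalizedAt

/-- The additive group `X` with the `G_ℚ`-action `act` is the group of `ℚ̄`-points of a finite
flat cocommutative Hopf algebra over `ℤ_(p)`. -/
def IsFlatMod (p : ℕ) (X : Type) [AddCommGroup X] (act : GQ → X → X) : Prop :=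
  ∃ (H : Type) (_ : CommRing H) (_ : HopfAlgebra (Zloc p) H),
    Module.Finite (Zloc p) H ∧ Module.Flat (Zloc p) H ∧ Coalgebra.IsCocomm (Zloc p) H ∧
    ∃ e : WithConv (H →ₐ[Zloc p] Qb) ≃ X,
      (∀ f g : WithConv (H →ₐ[Zloc p] Qb), e (f * g) = e f + e g) ∧
      ∀ (σ : GQ) (f g : WithConv (H →ₐ[Zloc p] Qb)),
        (∀ h : H, g h = σ (f h)) → e g = act σ (e f)

/-- The Prelude's `IsFlatAt` in terms of `IsFlatMod` (definitional unfolding). -/
theorem isFlatAt_iff {A : Type} [CommRing A] [IsLocalRing A] (ρ : GaloisRepAdic A) (p : ℕ) :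
    ρ.IsFlatAt p ↔ Finite (IsLocalRing.ResidueField A) ∧ ∀ I : Ideal A, Finite (A ⧸ I) →
      IsFlatMod p (ρ.V ⧸ (I • (⊤ : Submodule A ρ.V))) (fun σ => ρ.levelAction I σ) :=
  Iff.rfl

section transport

variable {p : ℕ} {X Y : Type} [AddCommGroup X] [AddCommGroup Y]

/-- Transport of flatness along an equivariant additive isomorphism. -/
theorem IsFlatMod.of_equiv {act : GQ → X → X} (h : IsFlatMod p X act) (φ : X ≃+ Y)
    (act' : GQ → Y → Y) (hφ : ∀ σ x, φ (act σ x) = act' σ (φ x)) : IsFlatMod p Y act' := by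
  obtain ⟨H, i1, i2, hfin, hflat, hco, e, hadd, heq⟩ := h
  refine ⟨H, i1, i2, hfin, hflat, hco, e.trans φ.toEquiv, fun f g => ?_, fun σ f g hfg => ?_⟩
  · show φ (e (f * g)) = φ (e f) + φ (e g)
    rw [hadd, map_add]
  · show φ (e g) = act' σ (φ (e f))
    rw [heq σ f g hfg, hφ]

end transport

section points

variable {p : ℕ} {H : Type} [CommRing H] [Algebra (Zloc p) H]

/-- The action of `G_ℚ` on points. -/
def galPoint (σ : GQ) (f : H →ₐ[Zloc p] Qb) : H →ₐ[Zloc p] Qb :=
  ((σ : Qb →ₐ[ℚ] Qb).restrictScalars (Zloc p)).comp f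

@[simp] theorem galPoint_apply (σ : GQ) (f : H →ₐ[Zloc p] Qb) (h : H) :
    galPoint σ f h = σ (f h) := rfl

/-- (INT) points of a finite algebra are integral over `ℤ_(p)`. -/
theorem isIntegral_point [Module.Finite (Zloc p) H] (f : H →ₐ[Zloc p] Qb) (h : H) :
    IsIntegral (Zloc p) (f h) :=
  (Algebra.IsIntegral.isIntegral (R := Zloc p) h).map f

/-- Integers lie in every valuation subring. -/
theorem val_intCast_le_one' (P : ValuationSubring Qb) (n : ℤ) : P.valuation ((n : ℤ) : Qb) ≤ 1 :=
  (P.valuation_le_one_iff _).mpr (intCast_mem P n)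

/-- A natural number prime to `p` is a unit in every valuation subring over `p`. -/
theorem val_natCast_eq_one_of_coprime (P : ValuationSubring Qb)
    (hP : P.LiesOverPrime p) {d : ℕ} (hd : d.Coprime p) : P.valuation ((d : ℕ) : Qb) = 1 := by
  have hle : P.valuation ((d : ℕ) : Qb) ≤ 1 := by
    have := val_intCast_le_one' P (d : ℤ)
    simpa using this
  rcases lt_or_eq_of_le hle with hlt | heq
  · exfalso
    have hgcd : IsCoprime (d : ℤ) (p : ℤ) := Nat.isCoprime_iff_coprime.mpr hd
    obtain ⟨u, v, huv⟩ := hgcd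
    have h1 : ((u : ℤ) : Qb) * ((d : ℕ) : Qb) + ((v : ℤ) : Qb) * ((p : ℕ) : Qb) = 1 := by
      have := congrArg (fun z : ℤ => (z : Qb)) huv
      simpa using this
    have hp1 : P.valuation ((p : ℕ) : Qb) < 1 := (ValuationSubring.mem_nonunits_iff P).mp hP
    have h2 : P.valuation (((u : ℤ) : Qb) * ((d : ℕ) : Qb)) < 1 := by
      rw [map_mul]
      exact mul_lt_one_of_nonneg_of_lt_one_right (val_intCast_le_one' P u) zero_le hlt
    have h3 : P.valuation (((v : ℤ) : Qb) * ((p : ℕ) : Qb)) < 1 := by
      rw [map_mul]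
      exact mul_lt_one_of_nonneg_of_lt_one_right (val_intCast_le_one' P v) zero_le hp1
    have h4 : P.valuation (1 : Qb) < 1 := by
      rw [← h1]
      exact lt_of_le_of_lt (Valuation.map_add _ _ _) (max_lt h2 h3)
    rw [map_one] at h4
    exact lt_irrefl _ h4
  · exact heq

/-- Elements of `ℤ_(p)` lie in every valuation subring over `p`. -/
theorem algebraMap_mem_valuationSubring (P : ValuationSubring Qb)
    (hP : P.LiesOverPrime p) (a : Zloc p) : algebraMap (Zloc p) Qb a ∈ P := by
  obtain ⟨a, ha⟩ := a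
  have hden : a.den.Coprime p := ha
  have hval := val_natCast_eq_one_of_coprime P hP hden
  have hq : algebraMap (Zloc p) Qb ⟨a, ha⟩ = ((a.num : ℤ) : Qb) / ((a.den : ℕ) : Qb) := by
    have h1 : algebraMap (Zloc p) Qb ⟨a, ha⟩ = algebraMap ℚ Qb a := rfl
    rw [h1]
    conv_lhs => rw [← Rat.num_div_den a]
    rw [map_div₀, map_intCast, map_natCast]
  rw [hq, ← ValuationSubring.valuation_le_one_iff, map_div₀, hval, div_one]
  exact val_intCast_le_one' P a.num

/-- (INT) points take values in every valuation subring over `p`. -/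
theorem point_mem_valuationSubring [Module.Finite (Zloc p) H]
    (P : ValuationSubring Qb) (hP : P.LiesOverPrime p) (f : H →ₐ[Zloc p] Qb) (h : H) :
    f h ∈ P := by
  obtain ⟨g, hg, hgf⟩ := isIntegral_point f h
  -- `f h` is integral over the subring `P`
  have h1 : IsIntegral P.toSubring (f h) := by
    let ι : Zloc p →+* P.toSubring :=
      (algebraMap (Zloc p) Qb).codRestrict P.toSubring
        (fun a => algebraMap_mem_valuationSubring P hP a)
    refine ⟨g.map ι, hg.map _, ?_⟩
    rw [Polynomial.eval₂_map]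
    have : (algebraMap P.toSubring Qb).comp ι = algebraMap (Zloc p) Qb := by
      ext a
      rfl
    rw [this]
    exact hgf
  obtain ⟨y, hy⟩ := (IsIntegrallyClosed.isIntegral_iff (R := P) (K := Qb)).mp h1
  rw [← hy]
  exact y.2

end points

end Fermat.Agent.S56.H254

end
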