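import Fermat.Agent.S56.H254.FlatMod

/-!
# S56 / W-FLAT, bridge piece FL-BR (PROD): products of flat Galois modules (helper254)

`IsFlatMod.prod` : if `X₁`, `X₂` are flat (points of `H₁`, `H₂`) then `X₁ × X₂` with the diagonal
action is flat (points of `H₁ ⊗ H₂`).
-/

set_option autoImplicit false

open scoped TensorProduct
open WithConv

noncomputable section

namespace Fermat.Agent.S56.H254

local notation "Qb" => AlgebraicClosure ℚ
local notation "GQ" => (AlgebraicClosure ℚ ≃ₐ[ℚ] AlgebraicClosure ℚ)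
local notation "Zloc" => GaloisRep.ratLocalizedAt

section incl

variable (R : Type) [CommRing R] (A B : Type) [CommRing A] [CommRing B]
  [Bialgebra R A] [Bialgebra R B]

/-- `a ↦ a ⊗ 1` as a bialgebra homomorphism. -/
def inclLeftBialg : A →ₐc[R] A ⊗[R] B :=
  (Bialgebra.TensorProduct.map (BialgHom.id R A) (Bialgebra.unitBialgHom R B)).comp
    ((Bialgebra.TensorProduct.rid R R A).symm : A →ₐc[R] A ⊗[R] R)

/-- `b ↦ 1 ⊗ b` as a bialgebra homomorphism. -/
def inclRightBialg : B →ₐc[R] A ⊗[R] B :=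
  (Bialgebra.TensorProduct.map (Bialgebra.unitBialgHom R A) (BialgHom.id R B)).comp
    ((Bialgebra.TensorProduct.lid R B).symm : B →ₐc[R] R ⊗[R] B)

@[simp] theorem inclLeftBialg_apply (a : A) : inclLeftBialg R A B a = a ⊗ₜ[R] (1 : B) := by
  show (Bialgebra.TensorProduct.map (BialgHom.id R A) (Bialgebra.unitBialgHom R B))
    ((Bialgebra.TensorProduct.rid R R A).symm a) = _
  rw [Bialgebra.TensorProduct.rid_symm_apply, Bialgebra.TensorProduct.map_tmul]
  simp [Bialgebra.unitBialgHom]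

@[simp] theorem inclRightBialg_apply (b : B) : inclRightBialg R A B b = (1 : A) ⊗ₜ[R] b := by
  show (Bialgebra.TensorProduct.map (Bialgebra.unitBialgHom R A) (BialgHom.id R B))
    ((Bialgebra.TensorProduct.lid R B).symm b) = _
  rw [Bialgebra.TensorProduct.lid_symm_apply, Bialgebra.TensorProduct.map_tmul]
  simp [Bialgebra.unitBialgHom]

end incl

section prod

variable {p : ℕ} {X₁ X₂ : Type} [AddCommGroup X₁] [AddCommGroup X₂]

/-- **(PROD)** the product of two flat Galois modules is flat. -/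
theorem IsFlatMod.prod {act₁ : GQ → X₁ → X₁} {act₂ : GQ → X₂ → X₂}
    (h₁ : IsFlatMod p X₁ act₁) (h₂ : IsFlatMod p X₂ act₂) :
    IsFlatMod p (X₁ × X₂) (fun σ x => (act₁ σ x.1, act₂ σ x.2)) := by
  obtain ⟨H₁, i1, i2, hfin₁, hflat₁, hco₁, e₁, hadd₁, heq₁⟩ := h₁
  obtain ⟨H₂, j1, j2, hfin₂, hflat₂, hco₂, e₂, hadd₂, heq₂⟩ := h₂
  let ι₁ : H₁ →ₐc[Zloc p] H₁ ⊗[Zloc p] H₂ := inclLeftBialg (Zloc p) H₁ H₂
  let ι₂ : H₂ →ₐc[Zloc p] H₁ ⊗[Zloc p] H₂ := inclRightBialg (Zloc p) H₁ H₂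
  -- restriction of points to the two factors
  let r₁ : WithConv (H₁ ⊗[Zloc p] H₂ →ₐ[Zloc p] Qb) → WithConv (H₁ →ₐ[Zloc p] Qb) :=
    fun f => toConv (f.ofConv.comp (ι₁ : H₁ →ₐ[Zloc p] H₁ ⊗[Zloc p] H₂))
  let r₂ : WithConv (H₁ ⊗[Zloc p] H₂ →ₐ[Zloc p] Qb) → WithConv (H₂ →ₐ[Zloc p] Qb) :=
    fun f => toConv (f.ofConv.comp (ι₂ : H₂ →ₐ[Zloc p] H₁ ⊗[Zloc p] H₂))
  have hr₁ : ∀ f g, r₁ (f * g) = r₁ f * r₁ g := by
    intro f g
    apply WithConv.ofConv_injective
    exact AlgHom.convMul_comp_bialgHom_distrib f g ι₁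
  have hr₂ : ∀ f g, r₂ (f * g) = r₂ f * r₂ g := by
    intro f g
    apply WithConv.ofConv_injective
    exact AlgHom.convMul_comp_bialgHom_distrib f g ι₂
  have hr₁a : ∀ (f : WithConv (H₁ ⊗[Zloc p] H₂ →ₐ[Zloc p] Qb)) (a : H₁),
      r₁ f a = f (a ⊗ₜ[Zloc p] (1 : H₂)) := by
    intro f a
    show f.ofConv (ι₁ a) = _
    rw [inclLeftBialg_apply]
  have hr₂a : ∀ (f : WithConv (H₁ ⊗[Zloc p] H₂ →ₐ[Zloc p] Qb)) (b : H₂),
      r₂ f b = f ((1 : H₁) ⊗ₜ[Zloc p] b) := by
    intro f b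
    show f.ofConv (ι₂ b) = _
    rw [inclRightBialg_apply]
  -- the equivalence `Hom(H₁ ⊗ H₂, ℚ̄) ≃ Hom(H₁, ℚ̄) × Hom(H₂, ℚ̄)`
  let E : WithConv (H₁ ⊗[Zloc p] H₂ →ₐ[Zloc p] Qb) ≃ X₁ × X₂ :=
    { toFun := fun f => (e₁ (r₁ f), e₂ (r₂ f))
      invFun := fun x => toConv (Algebra.TensorProduct.productMap (e₁.symm x.1).ofConv
        (e₂.symm x.2).ofConv)
      left_inv := by
        intro f
        apply WithConv.ofConv_injective
        simp only [Equiv.symm_apply_apply]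
        apply Algebra.TensorProduct.ext'
        intro a b
        rw [Algebra.TensorProduct.productMap_apply_tmul]
        have h1 : (r₁ f).ofConv a = f (a ⊗ₜ[Zloc p] (1 : H₂)) := hr₁a f a
        have h2 : (r₂ f).ofConv b = f ((1 : H₁) ⊗ₜ[Zloc p] b) := hr₂a f b
        rw [h1, h2]
        show f.ofConv _ * f.ofConv _ = f.ofConv _
        rw [← map_mul, Algebra.TensorProduct.tmul_mul_tmul, mul_one, one_mul]
      right_inv := by
        rintro ⟨x₁, x₂⟩
        have h1 : r₁ (toConv (Algebra.TensorProduct.productMap (e₁.symm x₁).ofConv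
            (e₂.symm x₂).ofConv)) = e₁.symm x₁ := by
          apply WithConv.ofConv_injective
          ext a
          have := hr₁a (toConv (Algebra.TensorProduct.productMap (e₁.symm x₁).ofConv
            (e₂.symm x₂).ofConv)) a
          rw [show (r₁ (toConv (Algebra.TensorProduct.productMap (e₁.symm x₁).ofConv
            (e₂.symm x₂).ofConv))).ofConv a = _ from this]
          show Algebra.TensorProduct.productMap (e₁.symm x₁).ofConv (e₂.symm x₂).ofConv
            (a ⊗ₜ[Zloc p] (1 : H₂)) = _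
          rw [Algebra.TensorProduct.productMap_apply_tmul, map_one, mul_one]
        have h2 : r₂ (toConv (Algebra.TensorProduct.productMap (e₁.symm x₁).ofConv
            (e₂.symm x₂).ofConv)) = e₂.symm x₂ := by
          apply WithConv.ofConv_injective
          ext b
          have := hr₂a (toConv (Algebra.TensorProduct.productMap (e₁.symm x₁).ofConv
            (e₂.symm x₂).ofConv)) b
          rw [show (r₂ (toConv (Algebra.TensorProduct.productMap (e₁.symm x₁).ofConv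
            (e₂.symm x₂).ofConv))).ofConv b = _ from this]
          show Algebra.TensorProduct.productMap (e₁.symm x₁).ofConv (e₂.symm x₂).ofConv
            ((1 : H₁) ⊗ₜ[Zloc p] b) = _
          rw [Algebra.TensorProduct.productMap_apply_tmul, map_one, one_mul]
        show (e₁ (r₁ _), e₂ (r₂ _)) = (x₁, x₂)
        rw [h1, h2, Equiv.apply_symm_apply, Equiv.apply_symm_apply] }
  refine ⟨H₁ ⊗[Zloc p] H₂, inferInstance, inferInstance, inferInstance, inferInstance,
    inferInstance, E, fun f g => ?_, fun σ f g hfg => ?_⟩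
  · show (e₁ (r₁ (f * g)), e₂ (r₂ (f * g))) = (e₁ (r₁ f), e₂ (r₂ f)) + (e₁ (r₁ g), e₂ (r₂ g))
    rw [hr₁, hr₂, hadd₁, hadd₂]
    rfl
  · show (e₁ (r₁ g), e₂ (r₂ g)) = (act₁ σ (e₁ (r₁ f)), act₂ σ (e₂ (r₂ f)))
    rw [heq₁ σ (r₁ f) (r₁ g) (fun a => by rw [hr₁a, hr₁a]; exact hfg _),
      heq₂ σ (r₂ f) (r₂ g) (fun b => by rw [hr₂a, hr₂a]; exact hfg _)]

end prod

end Fermat.Agent.S56.H254

end
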