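import Fermat.Agent.S56.FL.LMSpec
import Fermat.Agent.S56.H254.FlatLift
import Fermat.Agent.S37.H700.Arch
import Fermat.Agent.A2.H708.Tame
import Fermat.Agent.S28.H865Dvr

/-!
# S56 / W-FLAT-SS / LocalModel / ROOT, step R2 (helper254)

`FL.RationalityStatement` (Theorem A) applied to the pair of flat lifts:

* `levelSubring ρbar c₁ c₂ P` — `FL.levelSet` as a subring of `ℚ̄`;
* `point_mem_levelSet` — values of points of the flat model of `V_{c₁} × V_{c₂}` lie in `levelSet`;
* `level_of_fixes` — **R2**: if `η` is an approximate ring homomorphism on `levelSet`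
  (hypotheses of Theorem A, `γ ^ (p-1) < |p|`), then every `σ ∈ D_P` fixing the values of `η`
  satisfies `ρ̄ σ = 1`, `c₁ σ = 0`, `c₂ σ = 0`.

Sorry-free.
-/

set_option autoImplicit false

open scoped TensorProduct
open WithConv

noncomputable section

namespace Fermat.Agent.S56.H254

open Fermat.Agent.S56 Fermat.Agent.S56.H716 Fermat.Agent.S56.FL

local notation "Zloc" => GaloisRep.ratLocalizedAt

section level

variable {k : Type} [Field k] (ρbar : ResidualGaloisRep k)
  (c₁ c₂ : GQ → Module.End k ρbar.V) (P : ValuationSubring Qb)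

/-- `FL.levelSet` as a subring of `ℚ̄`. -/
def levelSubring : Subring Qb where
  carrier := levelSet ρbar c₁ c₂ P
  mul_mem' := by
    rintro a b ⟨ha, ha'⟩ ⟨hb, hb'⟩
    refine ⟨P.mul_mem _ _ ha hb, fun σ hσ h1 h2 h3 => ?_⟩
    rw [map_mul, ha' σ hσ h1 h2 h3, hb' σ hσ h1 h2 h3]
  one_mem' := ⟨P.one_mem, fun σ _ _ _ _ => map_one σ⟩
  add_mem' := by
    rintro a b ⟨ha, ha'⟩ ⟨hb, hb'⟩
    refine ⟨P.add_mem _ _ ha hb, fun σ hσ h1 h2 h3 => ?_⟩
    rw [map_add, ha' σ hσ h1 h2 h3, hb' σ hσ h1 h2 h3]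
  zero_mem' := ⟨P.zero_mem, fun σ _ _ _ _ => map_zero σ⟩
  neg_mem' := by
    rintro a ⟨ha, ha'⟩
    refine ⟨P.neg_mem _ ha, fun σ hσ h1 h2 h3 => ?_⟩
    rw [map_neg, ha' σ hσ h1 h2 h3]

@[simp] theorem mem_levelSubring {x : Qb} :
    x ∈ levelSubring ρbar c₁ c₂ P ↔ x ∈ levelSet ρbar c₁ c₂ P := Iff.rfl

end level

/-- The rank-one condition of `FL.RationalityStatement` for a valuation subring of `ℚ̄` over a
prime. -/
theorem rankOne_of_liesOverPrime (P : ValuationSubring Qb) {p : ℕ} (hp : p.Prime)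
    (hP : P.LiesOverPrime p) :
    ∀ x y : P.ValueGroup, x < 1 → y ≠ 0 → ∃ n : ℕ, x ^ n ≤ y := by
  haveI : Algebra.IsAlgebraic ℚ Qb := AlgebraicClosure.isAlgebraic ℚ
  intro x y hx hy
  obtain ⟨a, rfl⟩ := P.valuation_surjective x
  obtain ⟨d, rfl⟩ := P.valuation_surjective y
  have ha : a ∈ P.nonunits := (ValuationSubring.mem_nonunits_iff (A := P)).mpr hx
  have hd : d ≠ 0 := (Valuation.ne_zero_iff _).mp hy
  obtain ⟨m, hm⟩ := Fermat.Agent.S37.H700.archVal_of_liesOverPrime P hp hP a ha d hd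
  exact ⟨m, hm.le⟩

section points

variable {k : Type} [Field k] {ρbar : ResidualGaloisRep k}
  {c₁ c₂ : GQ → Module.End k ρbar.V} {P : ValuationSubring Qb} {p : ℕ}

/-- In an additive group, an additive bijection from a convolution monoid sends `1` to `0`. -/
theorem map_one_of_add {M X : Type} [Monoid M] [AddCommGroup X] (e : M ≃ X)
    (hadd : ∀ f g : M, e (f * g) = e f + e g) : e 1 = 0 := by
  have h := hadd 1 1
  rw [mul_one] at h
  exact left_eq_add.mp h

/-- An additive bijection sends powers to multiples. -/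
theorem map_pow_of_add {M X : Type} [Monoid M] [AddCommGroup X] (e : M ≃ X)
    (hadd : ∀ f g : M, e (f * g) = e f + e g) (f : M) (n : ℕ) : e (f ^ n) = n • e f := by
  induction n with
  | zero => rw [pow_zero, zero_smul, map_one_of_add e hadd]
  | succ n ih => rw [pow_succ, hadd, ih, succ_nsmul]

/-- **R2.**  Theorem A for the pair of flat lifts: an element of the decomposition group which
fixes the values of an approximate ring homomorphism `η` on `levelSet` acts trivially on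
`V_{c₁} × V_{c₂}`. -/
theorem level_of_fixes (hRat : RationalityStatement) [Finite k] [Fact p.Prime] (hchar : CharP k p)
    (hP : P.LiesOverPrime p)
    {ρ₁ ρ₂ : GaloisRepAdic (DualNumber k)} (h₁ : IsLiftOf ρbar c₁ ρ₁) (h₂ : IsLiftOf ρbar c₂ ρ₂)
    (hf₁ : ρ₁.IsFlatAt p) (hf₂ : ρ₂.IsFlatAt p)
    (γ : P.ValueGroup) (hγ0 : γ ≠ 0) (hγ : γ ^ (p - 1) < P.valuation (p : Qb))
    (η : Qb → Qb)
    (hη1 : ∀ a ∈ levelSet ρbar c₁ c₂ P, P.valuation (η a) ≤ 1)
    (hηadd : ∀ a ∈ levelSet ρbar c₁ c₂ P, ∀ b ∈ levelSet ρbar c₁ c₂ P,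
      P.valuation (η (a + b) - (η a + η b)) ≤ P.valuation (p : Qb) * γ)
    (hηmul : ∀ a ∈ levelSet ρbar c₁ c₂ P, ∀ b ∈ levelSet ρbar c₁ c₂ P,
      P.valuation (η (a * b) - η a * η b) ≤ P.valuation (p : Qb) * γ)
    (hηR : ∀ r : Zloc p, P.valuation (η (algebraMap (Zloc p) Qb r) - algebraMap (Zloc p) Qb r)
      ≤ P.valuation (p : Qb) * γ)
    (hηiso : ∀ a ∈ levelSet ρbar c₁ c₂ P, P.valuation (η a) ≤ γ → P.valuation a ≤ γ)
    {σ : GQ} (hσ : σ ∈ P.decompositionSubgroup ℚ)
    (hfix : ∀ a ∈ levelSet ρbar c₁ c₂ P, σ (η a) = η a) :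
    ρbar.ρ σ = 1 ∧ c₁ σ = 0 ∧ c₂ σ = 0 := by
  haveI : Algebra.IsAlgebraic ℚ Qb := AlgebraicClosure.isAlgebraic ℚ
  have hp : p.Prime := Fact.out
  obtain ⟨H, i1, i2, hfin, hflat, hco, e, hadd, heq⟩ := isFlatMod_pair h₁ hf₁ h₂ hf₂
  -- the action is trivial on `N`
  have hN : ∀ τ ∈ P.decompositionSubgroup ℚ, ρbar.ρ τ = 1 → c₁ τ = 0 → c₂ τ = 0 →
      ∀ (f : H →ₐ[Zloc p] Qb) (h : H), τ (f h) = f h := by
    intro τ _ h1 h2 h3 f h
    have hact := (pair_fixed_iff c₁ c₂ τ).mpr ⟨h1, h2, h3⟩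
    have hg : e (toConv (galPoint τ f)) = e (toConv f) :=
      (heq τ (toConv f) (toConv (galPoint τ f)) (fun h => rfl)).trans (hact _)
    have := e.injective hg
    have h4 : galPoint τ f = f := WithConv.toConv_injective this
    have := congrArg (fun g : H →ₐ[Zloc p] Qb => g h) h4
    exact this
  -- instances for Theorem A
  haveI : Module.Finite (Zloc p) H := hfin
  haveI : Module.Flat (Zloc p) H := hflat
  haveI : Coalgebra.IsCocomm (Zloc p) H := hco
  haveI : Module.Free (Zloc p) H := Module.free_of_flat_of_isLocalRing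
  haveI : Finite (DualNumber k) := finite_dualNumber
  haveI : Finite (DualNumber k ⊗[k] ρbar.V) := by
    haveI : Module.Finite k (DualNumber k) := Module.Finite.of_finite
    haveI : Module.Finite k (DualNumber k ⊗[k] ρbar.V) := inferInstance
    exact Module.finite_of_finite k
  haveI : Finite (WithConv (H →ₐ[Zloc p] Qb)) := Finite.of_equiv _ e.symm
  haveI : Finite (H →ₐ[Zloc p] Qb) := Finite.of_equiv _ (WithConv.equiv _)
  -- points are killed by `p`
  have hpk : (p : k) = 0 := CharP.cast_eq_zero k p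
  have hpow : ∀ x : WithConv (H →ₐ[Zloc p] Qb), x ^ p = 1 := by
    intro x
    apply e.injective
    rw [map_pow_of_add e hadd, map_one_of_add e hadd]
    have : (p : ℕ) • e x = (p : k) • e x := (Nat.cast_smul_eq_nsmul k p (e x)).symm
    rw [this, hpk, zero_smul]
  -- apply Theorem A
  have key := hRat Qb P.ValueGroup P.valuation (rankOne_of_liesOverPrime P hp hP) (Zloc p)
    (fun r => (P.valuation_le_one_iff _).mpr (algebraMap_mem_valuationSubring P hP r))
    H p hp hpow γ hγ0 hγ (levelSubring ρbar c₁ c₂ P)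
    (fun a ha => (P.valuation_le_one_iff _).mpr ha.1)
    (fun x h => ⟨point_mem_valuationSubring P hP x h, fun τ hτ h1 h2 h3 => hN τ hτ h1 h2 h3 x h⟩)
    η hη1 hηadd hηmul hηR hηiso
    (σ : Qb →+* Qb)
    (fun a => Fermat.Agent.A2.H708.valuation_apply_of_mem_decomposition P hσ a)
    (fun r => σ.commutes _)
    hfix
  -- conclude
  refine (pair_fixed_iff c₁ c₂ σ).mp fun x => ?_
  obtain ⟨f, rfl⟩ := e.surjective x
  have hg : e (toConv (galPoint σ f.ofConv)) = (liftEnd ρbar c₁ σ (e f).1, liftEnd ρbar c₂ σ (e f).2) :=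
    heq σ f (toConv (galPoint σ f.ofConv)) (fun h => rfl)
  rw [← hg]
  congr 1
  apply WithConv.ofConv_injective
  refine AlgHom.ext fun h => ?_
  exact key f.ofConv h

end points

end Fermat.Agent.S56.H254

end
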